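/-
P-CFT / LOC-5 (helper61), part 1: explicit 2-cocycles of a finite cyclic group (Mathlib only,
elementary language `IsMulCocycle₂` / `IsMulCoboundary₂`).

For a finite cyclic group `G = ⟨g⟩` of order `n` acting on a commutative group `M`
(`MulDistribMulAction`), and `a : M`, the *standard cocycle* is
`stdCocycle g a (g^i, g^j) = a ^ ⌊(i + j) / n⌋` (`0 ≤ i, j < n`).

* `isMulCocycle₂_stdCocycle`: it is a 2-cocycle if `g • a = a`;
* `isMulCoboundary₂_stdCocycle_iff`: it is a coboundary iff `a` is a norm `∏_{i<n} g^i • b`;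
* `exists_stdCocycle_cohomologous`: every 2-cocycle is cohomologous to a standard one;
* `stdCocycle_comp_hom`: pull-back along an injective homomorphism of cyclic groups.
-/
import Mathlib

set_option autoImplicit false
set_option linter.unusedSectionVars false

noncomputable section

namespace Fermat.Agent.H61.CFT

open groupCohomology

section dlog

variable {G : Type*} [Group G]

/-- `g` has finite order and every element of `G` is a power of `g`. -/
def IsGen (g : G) : Prop := 0 < orderOf g ∧ ∀ x : G, ∃ i : ℕ, g ^ i = x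

lemma isGen_of_forall_mem_zpowers [Finite G] {g : G} (hg : ∀ x : G, x ∈ Subgroup.zpowers g) :
    IsGen g := by
  refine ⟨orderOf_pos g, fun x => ?_⟩
  have := (mem_powers_iff_mem_zpowers (x := g) (y := x)).2 (hg x)
  exact (Submonoid.mem_powers_iff _ _).1 this

lemma IsGen.mem_zpowers {g : G} (hg : IsGen g) (x : G) : x ∈ Subgroup.zpowers g := by
  obtain ⟨i, rfl⟩ := hg.2 x
  exact Subgroup.npow_mem_zpowers g i

/-- Discrete logarithm with respect to `g`: the least `i` with `g ^ i = x` (`0` if none). -/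
def dlog (g x : G) : ℕ := sInf {i : ℕ | g ^ i = x}

lemma pow_dlog' {g x : G} (hx : ∃ i : ℕ, g ^ i = x) : g ^ dlog g x = x :=
  Nat.sInf_mem (s := {i : ℕ | g ^ i = x}) hx

lemma dlog_lt' {g : G} (hn : 0 < orderOf g) {x : G} (hx : ∃ i : ℕ, g ^ i = x) :
    dlog g x < orderOf g := by
  obtain ⟨i, hi⟩ := hx
  have h1 : (i % orderOf g) ∈ {i : ℕ | g ^ i = x} := by
    show g ^ (i % orderOf g) = x
    rw [pow_mod_orderOf, hi]
  exact (Nat.sInf_le h1).trans_lt (Nat.mod_lt _ hn)

lemma dlog_pow' {g : G} (hn : 0 < orderOf g) (i : ℕ) : dlog g (g ^ i) = i % orderOf g := by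
  have h1 : g ^ dlog g (g ^ i) = g ^ i := pow_dlog' ⟨i, rfl⟩
  have h2 := dlog_lt' hn (x := g ^ i) ⟨i, rfl⟩
  have h3 := (pow_inj_mod).1 h1
  rwa [Nat.mod_eq_of_lt h2] at h3

lemma IsGen.pow_dlog {g : G} (hg : IsGen g) (x : G) : g ^ dlog g x = x := pow_dlog' (hg.2 x)

lemma IsGen.dlog_lt {g : G} (hg : IsGen g) (x : G) : dlog g x < orderOf g :=
  dlog_lt' hg.1 (hg.2 x)

lemma IsGen.dlog_mul {g : G} (hg : IsGen g) (x y : G) :
    dlog g (x * y) = (dlog g x + dlog g y) % orderOf g := by
  conv_lhs => rw [← hg.pow_dlog x, ← hg.pow_dlog y, ← pow_add]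
  exact dlog_pow' hg.1 _

lemma IsGen.dlog_one {g : G} (hg : IsGen g) : dlog g 1 = 0 := by
  have := dlog_pow' hg.1 (g := g) 0
  simpa using this

end dlog

section std

variable {G M : Type*} [Group G] [CommGroup M]

/-- The standard 2-cocycle `(g^i, g^j) ↦ a ^ ⌊(i + j) / n⌋` of a cyclic group. -/
def stdCocycle (g : G) (a : M) : G × G → M :=
  fun p => a ^ ((dlog g p.1 + dlog g p.2) / orderOf g)

lemma stdCocycle_apply (g : G) (a : M) (x y : G) :
    stdCocycle g a (x, y) = a ^ ((dlog g x + dlog g y) / orderOf g) := rfl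

lemma stdCocycle_mul (g : G) (a b : M) (p : G × G) :
    stdCocycle g (a * b) p = stdCocycle g a p * stdCocycle g b p := by
  simp only [stdCocycle, mul_pow]

lemma stdCocycle_one (g : G) (p : G × G) : stdCocycle g (1 : M) p = 1 := by
  simp only [stdCocycle, one_pow]

lemma stdCocycle_inv (g : G) (a : M) (p : G × G) :
    stdCocycle g a⁻¹ p = (stdCocycle g a p)⁻¹ := by
  simp only [stdCocycle, inv_pow]

lemma stdCocycle_zpow (g : G) (a : M) (m : ℤ) (p : G × G) :
    stdCocycle g (a ^ m) p = (stdCocycle g a p) ^ m := by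
  simp only [stdCocycle, ← zpow_natCast, ← zpow_mul, mul_comm]

lemma stdCocycle_map {M' : Type*} [CommGroup M'] (ψ : M →* M') (g : G) (a : M) (p : G × G) :
    ψ (stdCocycle g a p) = stdCocycle g (ψ a) p := by
  simp only [stdCocycle, map_pow]

/-- Pull-back of the standard cocycle along a homomorphism of cyclic groups `ι : G' → G` with
`ι g' = g ^ f`, `f * ord g' = ord g`. -/
lemma stdCocycle_comp_hom {G' : Type*} [Group G'] {g : G} {g' : G'} (hg' : IsGen g')
    (hg : 0 < orderOf g) (ι : G' →* G) {f : ℕ} (hι : ι g' = g ^ f)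
    (hf : f * orderOf g' = orderOf g) (a : M) (x y : G') :
    stdCocycle g a (ι x, ι y) = stdCocycle g' a (x, y) := by
  have hf0 : 0 < f := by
    rcases Nat.eq_zero_or_pos f with h | h
    · rw [h, zero_mul] at hf; omega
    · exact h
  have key : ∀ z : G', dlog g (ι z) = f * dlog g' z := by
    intro z
    have h1 : ι z = g ^ (f * dlog g' z) := by
      conv_lhs => rw [← hg'.pow_dlog z]
      rw [map_pow, hι, ← pow_mul]
    rw [h1, dlog_pow' hg, Nat.mod_eq_of_lt]
    rw [← hf]
    exact Nat.mul_lt_mul_of_pos_left (hg'.dlog_lt z) hf0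
  rw [stdCocycle_apply, stdCocycle_apply, key, key, ← hf, ← Nat.mul_add,
    Nat.mul_div_mul_left _ _ hf0]

end std

section identities

variable {M : Type*} [CommGroup M]

lemma cg_id1 (A B C D E : M) : C / D * (A * E / C) / (A / B) = B * E / D := by
  have h : ∀ (a b c d e : Additive M), c - d + (a + e - c) - (a - b) = b + e - d := by
    intros; abel
  exact h (Additive.ofMul A) (Additive.ofMul B) (Additive.ofMul C) (Additive.ofMul D)
    (Additive.ofMul E)

lemma cg_id2 (A B C E : M) (h : A / B * C / (C / E) = A * C / C) : B = E := by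
  have h' : ∀ (a b c e : Additive M), a - b + c - (c - e) = a + c - c → b = e := by
    intro a b c e h
    have : (a - b + c - (c - e)) - (a + c - c) = e - b := by abel
    rw [h, sub_self] at this
    exact (sub_eq_zero.1 this.symm).symm
  exact h' (Additive.ofMul A) (Additive.ofMul B) (Additive.ofMul C) (Additive.ofMul E) h

lemma cg_id3 (A B C D : M) : D / A * C = D * C / (A / B) / B := by
  have h : ∀ (a b c d : Additive M), d - a + c = d + c - (a - b) - b := by
    intros; abel
  exact h (Additive.ofMul A) (Additive.ofMul B) (Additive.ofMul C) (Additive.ofMul D)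

lemma cg_id4 (A B C D E F : M) :
    A * B / (C * D) * (E * F) = A / C * E * (B / D * F) := by
  have h : ∀ (a b c d e f : Additive M), a + b - (c + d) + (e + f) = a - c + e + (b - d + f) := by
    intros; abel
  exact h (Additive.ofMul A) (Additive.ofMul B) (Additive.ofMul C) (Additive.ofMul D)
    (Additive.ofMul E) (Additive.ofMul F)

lemma cg_id5 (A B C : M) : A⁻¹ / B⁻¹ * C⁻¹ = (A / B * C)⁻¹ := by
  have h : ∀ (a b c : Additive M), -a - -b + -c = -(a - b + c) := by
    intros; abel
  exact h (Additive.ofMul A) (Additive.ofMul B) (Additive.ofMul C)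

end identities

section action

variable {G M : Type*} [Group G] [CommGroup M] [MulDistribMulAction G M]

lemma IsGen.smul_eq_of_smul_eq {g : G} (hg : IsGen g) {a : M} (ha : g • a = a) (x : G) :
    x • a = a := by
  obtain ⟨i, rfl⟩ := hg.2 x
  induction i with
  | zero => simp
  | succ k ih => rw [pow_succ, mul_smul, ha, ih]

/-- The standard cocycle of an invariant element is a 2-cocycle. -/
theorem isMulCocycle₂_stdCocycle {g : G} (hg : IsGen g) {a : M} (ha : g • a = a) :
    IsMulCocycle₂ (stdCocycle g a) := by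
  intro x y z
  have hn := hg.1
  simp only [stdCocycle_apply]
  rw [smul_pow', hg.smul_eq_of_smul_eq ha x, ← pow_add, ← pow_add, hg.dlog_mul, hg.dlog_mul]
  congr 1
  set i := dlog g x
  set j := dlog g y
  set k := dlog g z
  set n := orderOf g
  have e1 : ((i + j) % n + k) / n + (i + j) / n = (i + j + k) / n := by
    rw [← Nat.add_mul_div_left _ _ hn]
    congr 1
    have := Nat.mod_add_div (i + j) n
    omega
  have e2 : (j + k) / n + (i + (j + k) % n) / n = (i + j + k) / n := by
    rw [add_comm, ← Nat.add_mul_div_left _ _ hn]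
    congr 1
    have := Nat.mod_add_div (j + k) n
    omega
  rw [e1, e2]

/-- Partial norms `∏_{k < m} g^k • b`. -/
def partialNorm (g : G) (b : M) (m : ℕ) : M := ∏ k ∈ Finset.range m, g ^ k • b

/-- The norm `∏_{k < n} g^k • b`, `n = orderOf g`. -/
def cycNorm (g : G) (b : M) : M := partialNorm g b (orderOf g)

lemma partialNorm_add (g : G) (b : M) (i j : ℕ) :
    partialNorm g b (i + j) = partialNorm g b i * g ^ i • partialNorm g b j := by
  unfold partialNorm
  rw [Finset.prod_range_add, Finset.smul_prod']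
  congr 1
  refine Finset.prod_congr rfl fun k _ => ?_
  rw [smul_smul, ← pow_add]

lemma partialNorm_add_order (g : G) (b : M) (m : ℕ) :
    partialNorm g b (m + orderOf g) = partialNorm g b m * cycNorm g b := by
  rw [add_comm, partialNorm_add, pow_orderOf_eq_one, one_smul, mul_comm]
  rfl

lemma partialNorm_add_mul_order (g : G) (b : M) (r q : ℕ) :
    partialNorm g b (r + q * orderOf g) = partialNorm g b r * cycNorm g b ^ q := by
  induction q with
  | zero => simp
  | succ q ih =>
      rw [Nat.succ_mul, ← add_assoc, partialNorm_add_order, ih, pow_succ, mul_assoc]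

lemma partialNorm_eq (g : G) (b : M) (m : ℕ) :
    partialNorm g b m =
      partialNorm g b (m % orderOf g) * cycNorm g b ^ (m / orderOf g) := by
  rw [← partialNorm_add_mul_order, mul_comm, Nat.mod_add_div]

lemma smul_cycNorm (g : G) (b : M) : g • cycNorm g b = cycNorm g b := by
  have h1 := partialNorm_add g b 1 (orderOf g)
  have h2 := partialNorm_add_order g b 1
  have h3 : partialNorm g b 1 = b := by simp [partialNorm]
  rw [h2, h3, pow_one] at h1
  exact (mul_left_cancel h1).symm

/-- The standard cocycle of a norm is a coboundary. -/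
theorem isMulCoboundary₂_stdCocycle_cycNorm {g : G} (hg : IsGen g) (b : M) :
    IsMulCoboundary₂ (stdCocycle g (cycNorm g b)) := by
  refine ⟨fun x => partialNorm g b (dlog g x), fun x y => ?_⟩
  simp only [stdCocycle_apply]
  rw [hg.dlog_mul]
  have h1 := partialNorm_add g b (dlog g x) (dlog g y)
  rw [hg.pow_dlog] at h1
  have h2 := partialNorm_eq g b (dlog g x + dlog g y)
  rw [div_mul_eq_mul_div, mul_comm, ← h1, h2]
  simp

/-- If the standard cocycle of `a` is a coboundary, `a` is a norm. -/
theorem exists_cycNorm_of_isMulCoboundary₂ {g : G} (hg : IsGen g) {a : M}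
    (h : IsMulCoboundary₂ (stdCocycle g a)) : ∃ b : M, a = cycNorm g b := by
  rcases Nat.lt_or_ge 1 (orderOf g) with hn | hn
  · obtain ⟨x, hx⟩ := h
    refine ⟨x g, ?_⟩
    have hn0 : 0 < orderOf g := by omega
    -- product over `i < n` of the coboundary relation at `(g^i, g)`
    have hd1 : dlog g g = 1 := by
      have := dlog_pow' hn0 (g := g) 1
      rwa [pow_one, Nat.mod_eq_of_lt hn] at this
    have key : ∀ i ∈ Finset.range (orderOf g),
        g ^ i • x g / x (g ^ (i + 1)) * x (g ^ i) = a ^ ((i + 1) / orderOf g) := by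
      intro i hi
      have := hx (g ^ i) g
      rw [stdCocycle_apply, dlog_pow' hn0, Nat.mod_eq_of_lt (Finset.mem_range.1 hi), hd1,
        ← pow_succ] at this
      exact this
    have hprod := Finset.prod_congr rfl key
    rw [Finset.prod_mul_distrib, Finset.prod_div_distrib] at hprod
    have htel : ∏ i ∈ Finset.range (orderOf g), x (g ^ (i + 1)) =
        ∏ i ∈ Finset.range (orderOf g), x (g ^ i) := by
      have e1 := Finset.prod_range_succ (fun i => x (g ^ i)) (orderOf g)
      have e2 := Finset.prod_range_succ' (fun i => x (g ^ i)) (orderOf g)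
      rw [e1] at e2
      simp only [pow_orderOf_eq_one, pow_zero] at e2
      exact (mul_right_cancel e2).symm
    rw [htel, div_mul_cancel] at hprod
    have hrhs : ∏ i ∈ Finset.range (orderOf g), a ^ ((i + 1) / orderOf g) = a := by
      obtain ⟨m, hm⟩ : ∃ m, orderOf g = m + 1 := ⟨orderOf g - 1, by omega⟩
      rw [hm, Finset.prod_range_succ]
      have : ∀ i ∈ Finset.range m, a ^ ((i + 1) / (m + 1)) = 1 := by
        intro i hi
        rw [Nat.div_eq_of_lt (by have := Finset.mem_range.1 hi; omega), pow_zero]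
      rw [Finset.prod_congr rfl this, Finset.prod_const_one, one_mul, Nat.div_self (by omega),
        pow_one]
    rw [hrhs] at hprod
    exact hprod.symm
  · -- `n = 1`: the norm is the identity
    have hn1 : orderOf g = 1 := le_antisymm hn hg.1
    refine ⟨a, ?_⟩
    simp [cycNorm, partialNorm, hn1]

theorem isMulCoboundary₂_stdCocycle_iff {g : G} (hg : IsGen g) {a : M} :
    IsMulCoboundary₂ (stdCocycle g a) ↔ ∃ b : M, a = cycNorm g b :=
  ⟨exists_cycNorm_of_isMulCoboundary₂ hg,
    fun ⟨b, hb⟩ => hb ▸ isMulCoboundary₂_stdCocycle_cycNorm hg b⟩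

/-! ### Every cocycle is cohomologous to a standard one -/

/-- `X(i) = ∏_{k < i} f (g^k, g)`. -/
def cocX (g : G) (f : G × G → M) (i : ℕ) : M := ∏ k ∈ Finset.range i, f (g ^ k, g)

/-- The invariant `∏_{k < n} f (g^k, g)` attached to a 2-cocycle. -/
def cocInv (g : G) (f : G × G → M) : M := cocX g f (orderOf g)

/-- `Y(i) = f (1, 1) / X(i)`. -/
def cocY (g : G) (f : G × G → M) (i : ℕ) : M := f (1, 1) / cocX g f i

lemma cocY_succ (g : G) (f : G × G → M) (i : ℕ) :
    cocY g f (i + 1) = cocY g f i / f (g ^ i, g) := by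
  simp only [cocY, cocX, Finset.prod_range_succ, div_div]

lemma cocX_add_order (g : G) (f : G × G → M) (m : ℕ) :
    cocX g f (m + orderOf g) = cocX g f m * cocInv g f := by
  unfold cocInv cocX
  rw [add_comm, Finset.prod_range_add, mul_comm]
  congr 1
  refine Finset.prod_congr rfl fun k _ => ?_
  rw [pow_add, pow_orderOf_eq_one, one_mul]

lemma cocY_add_order (g : G) (f : G × G → M) (m : ℕ) :
    cocY g f (m + orderOf g) = cocY g f m / cocInv g f := by
  simp only [cocY, cocX_add_order, div_div]

lemma cocY_add_mul_order (g : G) (f : G × G → M) (r q : ℕ) :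
    cocY g f (r + q * orderOf g) = cocY g f r / cocInv g f ^ q := by
  induction q with
  | zero => simp
  | succ q ih =>
      rw [Nat.succ_mul, ← add_assoc, cocY_add_order, ih, pow_succ, div_div]

lemma cocY_eq (g : G) (f : G × G → M) (m : ℕ) :
    cocY g f m = cocY g f (m % orderOf g) / cocInv g f ^ (m / orderOf g) := by
  rw [← cocY_add_mul_order, mul_comm, Nat.mod_add_div]

/-- The key formula: `f (g^i, g^j) = g^i • Y(j) * Y(i) / Y(i + j)`. -/
lemma cocycle_eq_cocY {g : G} {f : G × G → M} (hf : IsMulCocycle₂ f) (i j : ℕ) :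
    f (g ^ i, g ^ j) = g ^ i • cocY g f j * cocY g f i / cocY g f (i + j) := by
  induction j with
  | zero =>
      rw [pow_zero, map_one_snd_of_isMulCocycle₂ hf, add_zero, mul_div_cancel_right]
      simp [cocY, cocX]
  | succ j ih =>
      have h1 := hf (g ^ i) (g ^ j) g
      rw [← pow_add, ← pow_succ] at h1
      -- f (g^(i+j), g) * f (g^i, g^j) = g^i • f (g^j, g) * f (g^i, g^(j+1))
      have h2 : f (g ^ i, g ^ (j + 1)) =
          f (g ^ (i + j), g) * f (g ^ i, g ^ j) / g ^ i • f (g ^ j, g) := by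
        rw [h1, mul_div_cancel_left]
      have h3 : f (g ^ (i + j), g) = cocY g f (i + j) / cocY g f (i + j + 1) := by
        rw [cocY_succ]; simp
      have h4 : f (g ^ j, g) = cocY g f j / cocY g f (j + 1) := by
        rw [cocY_succ]; simp
      rw [h2, ih, h3, h4, smul_div', ← add_assoc]
      exact cg_id1 _ _ _ _ _

lemma smul_cocInv {g : G} {f : G × G → M} (hf : IsMulCocycle₂ f) :
    g • cocInv g f = cocInv g f := by
  have h1 := cocycle_eq_cocY hf (g := g) 1 (orderOf g)
  have h2 := cocycle_eq_cocY hf (g := g) 1 0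
  have e0 : cocY g f (orderOf g) = cocY g f 0 / cocInv g f := by
    simpa using cocY_add_order g f 0
  have e1 : cocY g f (1 + orderOf g) = cocY g f 1 / cocInv g f := cocY_add_order g f 1
  rw [pow_orderOf_eq_one, e0, e1, smul_div'] at h1
  rw [pow_zero, add_zero] at h2
  rw [h2, pow_one] at h1
  exact cg_id2 _ _ _ _ h1.symm

/-- Every 2-cocycle of a finite cyclic group is cohomologous to a standard cocycle. -/
theorem exists_stdCocycle_cohomologous {g : G} (hg : IsGen g) {f : G × G → M}
    (hf : IsMulCocycle₂ f) :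
    ∃ a : M, g • a = a ∧ IsMulCoboundary₂ (fun p => f p / stdCocycle g a p) := by
  refine ⟨cocInv g f, smul_cocInv hf, fun x => cocY g f (dlog g x), fun x y => ?_⟩
  have h1 := cocycle_eq_cocY hf (g := g) (dlog g x) (dlog g y)
  rw [hg.pow_dlog, hg.pow_dlog] at h1
  have h2 := cocY_eq g f (dlog g x + dlog g y)
  simp only [stdCocycle_apply]
  rw [hg.dlog_mul, h1, h2]
  exact cg_id3 _ _ _ _

/-! ### Coboundaries form a group -/

lemma isMulCoboundary₂_mul {f₁ f₂ : G × G → M} (h₁ : IsMulCoboundary₂ f₁)
    (h₂ : IsMulCoboundary₂ f₂) : IsMulCoboundary₂ (fun p => f₁ p * f₂ p) := by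
  obtain ⟨x₁, hx₁⟩ := h₁
  obtain ⟨x₂, hx₂⟩ := h₂
  refine ⟨fun g => x₁ g * x₂ g, fun g h => ?_⟩
  simp only [← hx₁ g h, ← hx₂ g h, smul_mul']
  exact cg_id4 _ _ _ _ _ _

lemma isMulCoboundary₂_inv {f : G × G → M} (h : IsMulCoboundary₂ f) :
    IsMulCoboundary₂ (fun p => (f p)⁻¹) := by
  obtain ⟨x, hx⟩ := h
  refine ⟨fun g => (x g)⁻¹, fun g h => ?_⟩
  simp only [← hx g h, smul_inv']
  exact cg_id5 _ _ _

lemma isMulCoboundary₂_div {f₁ f₂ : G × G → M} (h₁ : IsMulCoboundary₂ f₁)
    (h₂ : IsMulCoboundary₂ f₂) : IsMulCoboundary₂ (fun p => f₁ p / f₂ p) := by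
  simp only [div_eq_mul_inv]
  exact isMulCoboundary₂_mul h₁ (isMulCoboundary₂_inv h₂)

lemma isMulCoboundary₂_one : IsMulCoboundary₂ (fun _ : G × G => (1 : M)) :=
  ⟨fun _ => 1, fun g h => by simp⟩

lemma isMulCoboundary₂_pow {f : G × G → M} (h : IsMulCoboundary₂ f) (m : ℕ) :
    IsMulCoboundary₂ (fun p => (f p) ^ m) := by
  induction m with
  | zero => simpa using isMulCoboundary₂_one (G := G) (M := M)
  | succ m ih =>
      simp only [pow_succ]
      exact isMulCoboundary₂_mul ih h

lemma isMulCoboundary₂_zpow {f : G × G → M} (h : IsMulCoboundary₂ f) (m : ℤ) :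
    IsMulCoboundary₂ (fun p => (f p) ^ m) := by
  cases m with
  | ofNat m => simpa using isMulCoboundary₂_pow h m
  | negSucc m =>
      simp only [zpow_negSucc]
      exact isMulCoboundary₂_inv (isMulCoboundary₂_pow h (m + 1))

lemma isMulCoboundary₂_congr {f₁ f₂ : G × G → M} (h : ∀ p, f₁ p = f₂ p)
    (h₁ : IsMulCoboundary₂ f₁) : IsMulCoboundary₂ f₂ := by
  have : f₁ = f₂ := funext h
  rwa [← this]

end action

end Fermat.Agent.H61.CFT
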