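/-
P-CFT / LOC-5 (helper61), part 2 (a): norms of an unramified cyclic extension.

Mathlib only.  `F / E` finite Galois, `v` a Galois-invariant valuation on `F`, unramified over `E`
(same value group), `π` a uniformizer of `E`, and the norm index theorem
`[Eˣ : N Fˣ] = [F : E]` as a hypothesis.  Then `x ∈ N Fˣ ↔ n ∣ ord x`: pure index count.
-/
import Mathlib

set_option autoImplicit false

noncomputable section

namespace Fermat.Agent.H61.CFT

variable {E F : Type*} [Field E] [Field F] [Algebra E F]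
  {Γ₀ : Type*} [LinearOrderedCommGroupWithZero Γ₀]

/-- `F / E` is unramified with respect to `v`: the value groups agree. -/
def IsUnramVal (E : Type*) {F : Type*} [Field E] [Field F] [Algebra E F]
    {Γ₀ : Type*} [LinearOrderedCommGroupWithZero Γ₀] (v : Valuation F Γ₀) : Prop :=
  ∀ x : F, x ≠ 0 → ∃ y : E, y ≠ 0 ∧ v x = v (algebraMap E F y)

/-- `π` is a uniformizer of `E` with respect to the restriction of `v`. -/
def IsUnifVal {E : Type*} {F : Type*} [Field E] [Field F] [Algebra E F]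
    {Γ₀ : Type*} [LinearOrderedCommGroupWithZero Γ₀] (v : Valuation F Γ₀) (π : E) : Prop :=
  π ≠ 0 ∧ v (algebraMap E F π) < 1 ∧
    ∀ x : E, x ≠ 0 → ∃ n : ℤ, v (algebraMap E F x) = v (algebraMap E F π) ^ n

/-- The norm subgroup `N_{F/E}(Fˣ) ≤ Eˣ` (same as `Fermat.Agent.H78.CFT.normSubgroup`). -/
def normSubgp (E F : Type*) [Field E] [Field F] [Algebra E F] : Subgroup Eˣ :=
  (Units.map (Algebra.norm E : F →* E)).range

section ord

variable {v : Valuation F Γ₀} {π : E}

lemma IsUnifVal.val_pos (hπ : IsUnifVal v π) : 0 < v (algebraMap E F π) := by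
  have h : v (algebraMap E F π) ≠ 0 := by
    rw [Valuation.ne_zero_iff]
    exact (map_ne_zero (algebraMap E F)).2 hπ.1
  exact zero_lt_iff.2 h

lemma IsUnifVal.val_ne_one (hπ : IsUnifVal v π) : v (algebraMap E F π) ≠ 1 := hπ.2.1.ne

/-- The order of a unit of `E`. -/
def ordVal (hπ : IsUnifVal v π) (x : Eˣ) : ℤ := Classical.choose (hπ.2.2 x x.ne_zero)

lemma ordVal_spec (hπ : IsUnifVal v π) (x : Eˣ) :
    v (algebraMap E F x) = v (algebraMap E F π) ^ ordVal hπ x :=
  Classical.choose_spec (hπ.2.2 x x.ne_zero)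

lemma ordVal_eq_iff (hπ : IsUnifVal v π) (x : Eˣ) (k : ℤ) :
    ordVal hπ x = k ↔ v (algebraMap E F x) = v (algebraMap E F π) ^ k := by
  rw [ordVal_spec hπ x, zpow_right_inj₀ hπ.val_pos hπ.val_ne_one]

lemma ordVal_mul (hπ : IsUnifVal v π) (x y : Eˣ) :
    ordVal hπ (x * y) = ordVal hπ x + ordVal hπ y := by
  rw [ordVal_eq_iff, Units.val_mul, map_mul, map_mul, ordVal_spec hπ x, ordVal_spec hπ y,
    zpow_add₀ hπ.val_pos.ne']

lemma ordVal_one (hπ : IsUnifVal v π) : ordVal hπ 1 = 0 := by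
  rw [ordVal_eq_iff]; simp

lemma ordVal_unif (hπ : IsUnifVal v π) : ordVal hπ (Units.mk0 π hπ.1) = 1 := by
  rw [ordVal_eq_iff]; simp

/-- `ord` modulo `n` as a group homomorphism. -/
def ordMod (hπ : IsUnifVal v π) (n : ℕ) : Eˣ →* Multiplicative (ZMod n) where
  toFun x := Multiplicative.ofAdd ((ordVal hπ x : ℤ) : ZMod n)
  map_one' := by rw [ordVal_one]; simp
  map_mul' x y := by rw [ordVal_mul]; simp [ofAdd_add]

lemma ordMod_surjective (hπ : IsUnifVal v π) (n : ℕ) [NeZero n] :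
    Function.Surjective (ordMod hπ (E := E) n) := by
  intro z
  refine ⟨(Units.mk0 π hπ.1) ^ (ZMod.val (Multiplicative.toAdd z)), ?_⟩
  have h1 : ordVal hπ ((Units.mk0 π hπ.1) ^ (ZMod.val (Multiplicative.toAdd z))) =
      (ZMod.val (Multiplicative.toAdd z) : ℤ) := by
    rw [ordVal_eq_iff]
    simp only [Units.val_pow_eq_pow_val, Units.val_mk0, map_pow, zpow_natCast]
  show Multiplicative.ofAdd ((ordVal hπ _ : ℤ) : ZMod n) = z
  rw [h1]
  simp

lemma mem_ker_ordMod_iff (hπ : IsUnifVal v π) (n : ℕ) [NeZero n] (x : Eˣ) :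
    x ∈ (ordMod hπ (E := E) n).ker ↔ (n : ℤ) ∣ ordVal hπ x := by
  rw [MonoidHom.mem_ker]
  show Multiplicative.ofAdd ((ordVal hπ x : ℤ) : ZMod n) = 1 ↔ _
  rw [← ofAdd_zero, Multiplicative.ofAdd.apply_eq_iff_eq, ZMod.intCast_zmod_eq_zero_iff_dvd]

lemma index_ker_ordMod (hπ : IsUnifVal v π) (n : ℕ) [NeZero n] :
    (ordMod hπ (E := E) n).ker.index = n := by
  rw [Subgroup.index_ker, MonoidHom.range_eq_top.2 (ordMod_surjective hπ n)]
  simp [Nat.card_eq_fintype_card, ZMod.card]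

end ord

section main

variable [FiniteDimensional E F] [IsGalois E F] {v : Valuation F Γ₀} {π : E}

lemma val_norm_eq (hgal : ∀ (σ : F ≃ₐ[E] F) (x : F), v (σ x) = v x) (y : F) :
    v (algebraMap E F (Algebra.norm E y)) = v y ^ Module.finrank E F := by
  classical
  rw [Algebra.norm_eq_prod_automorphisms, map_prod]
  simp only [hgal]
  rw [Finset.prod_const, Finset.card_univ, ← Nat.card_eq_fintype_card,
    IsGalois.card_aut_eq_finrank]

lemma normSubgp_le_ker (hgal : ∀ (σ : F ≃ₐ[E] F) (x : F), v (σ x) = v x)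
    (hur : IsUnramVal E v) (hπ : IsUnifVal v π) :
    normSubgp E F ≤ (ordMod hπ (E := E) (Module.finrank E F)).ker := by
  have : NeZero (Module.finrank E F) := ⟨Module.finrank_pos.ne'⟩
  rintro x ⟨y, rfl⟩
  rw [mem_ker_ordMod_iff]
  obtain ⟨y₀, hy₀, hy⟩ := hur (y : F) y.ne_zero
  obtain ⟨k, hk⟩ := hπ.2.2 y₀ hy₀
  refine ⟨k, ?_⟩
  rw [ordVal_eq_iff]
  show v (algebraMap E F (Algebra.norm E (y : F))) = _
  rw [val_norm_eq hgal, hy, hk, ← zpow_natCast, ← zpow_mul, mul_comm]

/-- **LOC-5 (a).** In an unramified extension satisfying the norm index theorem, the norms are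
exactly the elements whose order is divisible by the degree. -/
theorem mem_normSubgp_iff (hgal : ∀ (σ : F ≃ₐ[E] F) (x : F), v (σ x) = v x)
    (hur : IsUnramVal E v) (hπ : IsUnifVal v π)
    (hidx : (normSubgp E F).index = Module.finrank E F) (x : Eˣ) :
    x ∈ normSubgp E F ↔ (Module.finrank E F : ℤ) ∣ ordVal hπ x := by
  have : NeZero (Module.finrank E F) := ⟨Module.finrank_pos.ne'⟩
  have hle := normSubgp_le_ker hgal hur hπ
  have h1 := Subgroup.relIndex_mul_index hle
  rw [index_ker_ordMod, hidx] at h1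
  have h2 : (normSubgp E F).relIndex (ordMod hπ (E := E) (Module.finrank E F)).ker = 1 := by
    have hn : 0 < Module.finrank E F := Module.finrank_pos
    exact Nat.eq_of_mul_eq_mul_right hn (by rw [h1, one_mul])
  have h3 := Subgroup.relIndex_eq_one.1 h2
  rw [← mem_ker_ordMod_iff]
  exact ⟨fun h => hle h, fun h => h3 h⟩

theorem mem_normSubgp_iff' (hgal : ∀ (σ : F ≃ₐ[E] F) (x : F), v (σ x) = v x)
    (hur : IsUnramVal E v) (hπ : IsUnifVal v π)
    (hidx : (normSubgp E F).index = Module.finrank E F) (x : Eˣ) :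
    x ∈ normSubgp E F ↔
      ∃ k : ℤ, v (algebraMap E F x) = v (algebraMap E F π) ^ ((Module.finrank E F : ℤ) * k) := by
  rw [mem_normSubgp_iff hgal hur hπ hidx]
  constructor
  · rintro ⟨k, hk⟩
    exact ⟨k, by rw [← hk]; exact ordVal_spec hπ x⟩
  · rintro ⟨k, hk⟩
    exact ⟨k, (ordVal_eq_iff hπ x _).2 hk⟩

/-- Powers of the uniformizer: `π ^ m` is a norm iff `n ∣ m`. -/
theorem unif_zpow_mem_normSubgp_iff (hgal : ∀ (σ : F ≃ₐ[E] F) (x : F), v (σ x) = v x)
    (hur : IsUnramVal E v) (hπ : IsUnifVal v π)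
    (hidx : (normSubgp E F).index = Module.finrank E F) (m : ℤ) :
    (Units.mk0 π hπ.1) ^ m ∈ normSubgp E F ↔ (Module.finrank E F : ℤ) ∣ m := by
  rw [mem_normSubgp_iff hgal hur hπ hidx]
  have : ordVal hπ ((Units.mk0 π hπ.1) ^ m) = m := by
    rw [ordVal_eq_iff]; simp
  rw [this]

/-- Every unit of `E` is a power of the uniformizer times a norm. -/
theorem exists_eq_unif_zpow_mul_norm (hgal : ∀ (σ : F ≃ₐ[E] F) (x : F), v (σ x) = v x)
    (hur : IsUnramVal E v) (hπ : IsUnifVal v π)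
    (hidx : (normSubgp E F).index = Module.finrank E F) (x : Eˣ) :
    ∃ y : Fˣ, x = (Units.mk0 π hπ.1) ^ (ordVal hπ x) * Units.map (Algebra.norm E : F →* E) y := by
  have h : x / (Units.mk0 π hπ.1) ^ (ordVal hπ x) ∈ normSubgp E F := by
    rw [mem_normSubgp_iff hgal hur hπ hidx]
    have : ordVal hπ (x / (Units.mk0 π hπ.1) ^ (ordVal hπ x)) = 0 := by
      rw [ordVal_eq_iff]
      simp only [Units.val_div_eq_div_val, Units.val_zpow_eq_zpow_val, Units.val_mk0, map_div₀,
        map_zpow₀, zpow_zero]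
      rw [← ordVal_spec hπ x]
      exact div_self (by
        rw [Valuation.ne_zero_iff]
        exact (map_ne_zero (algebraMap E F)).2 x.ne_zero)
    rw [this]
    exact dvd_zero _
  obtain ⟨y, hy⟩ := h
  exact ⟨y, by rw [hy]; simp⟩

end main

end Fermat.Agent.H61.CFT
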