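/-
P-CFT / LOC-5 (helper61), part 3 (b): unramified Brauer classes.

`F / E` finite Galois with cyclic Galois group generated by `φ`, `v` a Galois-invariant valuation
on `F`, unramified over `E`, `π` a uniformizer of `E`, norm index `[Eˣ : N Fˣ] = [F : E]` as a
hypothesis.  Then the standard cocycle `c_π` of the uniformizer has class of exact order
`n = [F : E]` and every 2-cocycle of `Gal(F/E)` with values in `Fˣ` is cohomologous to a power of
it.  Elementary language (`IsMulCocycle₂`, `IsMulCoboundary₂`) and `groupCohomology.H2`.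
-/
import Mathlib
import Fermat.Agent.H61.CFT.CyclicCocycle
import Fermat.Agent.H61.CFT.UnramNorm

set_option autoImplicit false
set_option linter.unusedSectionVars false

noncomputable section

namespace Fermat.Agent.H61.CFT

open groupCohomology

section prod

variable {G : Type*} [Group G] [Fintype G]

lemma IsGen.prod_univ_eq {M : Type*} [CommMonoid M] {g : G} (hg : IsGen g) (f : G → M) :
    ∏ x : G, f x = ∏ i ∈ Finset.range (orderOf g), f (g ^ i) := by
  classical
  have himg : (Finset.range (orderOf g)).image (fun i => g ^ i) = Finset.univ := by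
    ext x
    simp only [Finset.mem_image, Finset.mem_range, Finset.mem_univ, iff_true]
    obtain ⟨i, hi⟩ := hg.2 x
    exact ⟨i % orderOf g, Nat.mod_lt _ hg.1, by rw [pow_mod_orderOf, hi]⟩
  rw [← himg, Finset.prod_image]
  intro a ha b hb hab
  exact pow_injOn_Iio_orderOf (by simpa using ha) (by simpa using hb) hab

end prod

section field

variable {E F : Type*} [Field E] [Field F] [Algebra E F]

/-- The inclusion `Eˣ → Fˣ`. -/
def unitsIncl (E F : Type*) [Field E] [Field F] [Algebra E F] : Eˣ →* Fˣ :=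
  Units.map (algebraMap E F : E →* F)

@[simp] lemma unitsIncl_coe (a : Eˣ) : ((unitsIncl E F a : Fˣ) : F) = algebraMap E F a := rfl

lemma unitsIncl_injective : Function.Injective (unitsIncl E F) := by
  intro a b h
  have := congrArg (fun u : Fˣ => (u : F)) h
  simp only [unitsIncl_coe] at this
  exact Units.ext ((algebraMap E F).injective this)

lemma smul_unitsIncl (σ : F ≃ₐ[E] F) (a : Eˣ) : σ • unitsIncl E F a = unitsIncl E F a := by
  ext
  simp

variable [FiniteDimensional E F] [IsGalois E F]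

lemma exists_unitsIncl_of_fixed {φ : F ≃ₐ[E] F} (hφ : IsGen φ) {a : Fˣ} (ha : φ • a = a) :
    ∃ a₀ : Eˣ, unitsIncl E F a₀ = a := by
  have hall : ∀ σ : F ≃ₐ[E] F, σ (a : F) = a := by
    intro σ
    have := hφ.smul_eq_of_smul_eq ha σ
    have h2 := congrArg (fun u : Fˣ => (u : F)) this
    simpa [Units.smul_def] using h2
  obtain ⟨x, hx⟩ := (IsGalois.mem_range_algebraMap_iff_fixed (F := E) (E := F) (a : F)).2 hall
  have hx0 : x ≠ 0 := by
    rintro rfl
    rw [map_zero] at hx
    exact a.ne_zero hx.symm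
  exact ⟨Units.mk0 x hx0, Units.ext (by simpa using hx)⟩

lemma cycNorm_eq_unitsIncl_norm {φ : F ≃ₐ[E] F} (hφ : IsGen φ) (y : Fˣ) :
    cycNorm φ y = unitsIncl E F (Units.map (Algebra.norm E : F →* E) y) := by
  classical
  ext
  simp only [cycNorm, partialNorm, unitsIncl_coe, Units.coe_map, Units.coe_prod]
  rw [Algebra.norm_eq_prod_automorphisms, IsGen.prod_univ_eq hφ]
  rfl

lemma IsGen.orderOf_eq_finrank {φ : F ≃ₐ[E] F} (hφ : IsGen φ) :
    orderOf φ = Module.finrank E F := by
  rw [orderOf_eq_card_of_forall_mem_zpowers hφ.mem_zpowers, IsGalois.card_aut_eq_finrank]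

variable {Γ₀ : Type*} [LinearOrderedCommGroupWithZero Γ₀] {v : Valuation F Γ₀} {π : E}

/-- The uniformizer as a unit of `F`. -/
def unifUnit (hπ : IsUnifVal v π) : Fˣ := unitsIncl E F (Units.mk0 π hπ.1)

/-- **LOC-5 (b1).** The standard cocycle of an element of `Eˣ` is a 2-cocycle. -/
theorem isMulCocycle₂_stdCocycle_unitsIncl {φ : F ≃ₐ[E] F} (hφ : IsGen φ) (a : Eˣ) :
    IsMulCocycle₂ (stdCocycle φ (unitsIncl E F a)) :=
  isMulCocycle₂_stdCocycle hφ (smul_unitsIncl φ a)

/-- A standard cocycle with values in `Eˣ` is a coboundary iff the element is a norm. -/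
theorem isMulCoboundary₂_stdCocycle_unitsIncl_iff {φ : F ≃ₐ[E] F} (hφ : IsGen φ) (a : Eˣ) :
    IsMulCoboundary₂ (stdCocycle φ (unitsIncl E F a)) ↔ a ∈ normSubgp E F := by
  rw [isMulCoboundary₂_stdCocycle_iff hφ]
  constructor
  · rintro ⟨b, hb⟩
    rw [cycNorm_eq_unitsIncl_norm hφ] at hb
    exact ⟨b, (unitsIncl_injective hb).symm⟩
  · rintro ⟨b, hb⟩
    exact ⟨b, by rw [cycNorm_eq_unitsIncl_norm hφ, hb]⟩

/-- **LOC-5 (b2).** The `m`-th power of the uniformizer cocycle is a coboundary iff `n ∣ m`. -/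
theorem isMulCoboundary₂_unif_zpow_iff {φ : F ≃ₐ[E] F} (hφ : IsGen φ)
    (hgal : ∀ (σ : F ≃ₐ[E] F) (x : F), v (σ x) = v x)
    (hur : IsUnramVal E v) (hπ : IsUnifVal v π)
    (hidx : (normSubgp E F).index = Module.finrank E F) (m : ℤ) :
    IsMulCoboundary₂ (stdCocycle φ (unifUnit hπ ^ m)) ↔ (Module.finrank E F : ℤ) ∣ m := by
  have : unifUnit hπ ^ m = unitsIncl E F ((Units.mk0 π hπ.1) ^ m) := by
    rw [unifUnit, map_zpow]
  rw [this, isMulCoboundary₂_stdCocycle_unitsIncl_iff hφ,
    unif_zpow_mem_normSubgp_iff hgal hur hπ hidx]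

/-- **LOC-5 (b3).** Every 2-cocycle is cohomologous to a power of the uniformizer cocycle. -/
theorem exists_unif_zpow_cohomologous {φ : F ≃ₐ[E] F} (hφ : IsGen φ)
    (hgal : ∀ (σ : F ≃ₐ[E] F) (x : F), v (σ x) = v x)
    (hur : IsUnramVal E v) (hπ : IsUnifVal v π)
    (hidx : (normSubgp E F).index = Module.finrank E F)
    {f : (F ≃ₐ[E] F) × (F ≃ₐ[E] F) → Fˣ} (hf : IsMulCocycle₂ f) :
    ∃ m : ℤ, IsMulCoboundary₂ (fun p => f p / stdCocycle φ (unifUnit hπ ^ m) p) := by
  obtain ⟨a, ha, hcob⟩ := exists_stdCocycle_cohomologous hφ hf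
  obtain ⟨a₀, rfl⟩ := exists_unitsIncl_of_fixed hφ ha
  obtain ⟨y, hy⟩ := exists_eq_unif_zpow_mul_norm hgal hur hπ hidx a₀
  refine ⟨ordVal hπ a₀, ?_⟩
  have h1 : unitsIncl E F a₀ = unifUnit hπ ^ (ordVal hπ a₀) * cycNorm φ y := by
    conv_lhs => rw [hy]
    rw [map_mul, map_zpow, cycNorm_eq_unitsIncl_norm hφ]
    rfl
  have h2 := isMulCoboundary₂_mul hcob (isMulCoboundary₂_stdCocycle_cycNorm hφ y)
  refine isMulCoboundary₂_congr (fun p => ?_) h2
  simp only [h1, stdCocycle_mul]
  rw [div_mul_eq_div_div, div_mul_cancel]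

end field

end Fermat.Agent.H61.CFT
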