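/-
P-CFT / LOC-5 (helper61), part 5 (c): base change of unramified Brauer classes.

Abstract setting: fields `E ⊆ F`, `E' ⊆ F'`, a ring homomorphism `j : F → F'` and an INJECTIVE
group homomorphism `ι : Gal(F'/E') → Gal(F/E)` ("restriction") with `j (ι σ x) = σ (j x)`.
Then `Gal(F'/E')` has a generator `φ'` with `ι φ' = φ ^ (n / n')`, the pull-back of the standard
cocycle `c_a` (`a ∈ Eˣ`) along `(ι, j)` is the standard cocycle of `j a` for `φ'`, and, if `F'/E'`
is unramified with uniformizer `π'` and satisfies the norm index theorem, it is cohomologous to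
`c_{π'} ^ e` where `e = ord_{E'} (j a)`.  In particular it is a coboundary iff `[F' : E'] ∣ e`.
-/
import Mathlib
import Fermat.Agent.H61.CFT.UnramBrauer

set_option autoImplicit false
set_option linter.unusedSectionVars false

noncomputable section

namespace Fermat.Agent.H61.CFT

open groupCohomology

section group

variable {G G' : Type*} [Group G] [Group G']

lemma IsGen.finite {g : G} (hg : IsGen g) : Finite G := by
  have : (Set.univ : Set G) ⊆ (fun i : ℕ => g ^ i) '' (Set.Iio (orderOf g)) := by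
    intro x _
    obtain ⟨i, hi⟩ := hg.2 x
    exact ⟨i % orderOf g, Nat.mod_lt _ hg.1, by simp only [pow_mod_orderOf, hi]⟩
  have hfin : (Set.univ : Set G).Finite := ((Set.finite_Iio _).image _).subset this
  exact Set.finite_univ_iff.1 hfin

lemma isGen_of_orderOf_eq_card [Finite G] {g : G} (h : orderOf g = Nat.card G) : IsGen g := by
  refine ⟨orderOf_pos g, fun x => ?_⟩
  have htop : Subgroup.zpowers g = ⊤ :=
    Subgroup.eq_top_of_card_eq _ (by rw [Nat.card_zpowers, h])
  have hx : x ∈ Subgroup.zpowers g := htop ▸ Subgroup.mem_top x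
  exact (Submonoid.mem_powers_iff _ _).1 ((mem_powers_iff_mem_zpowers).2 hx)

/-- A finite group embedding into a cyclic group `⟨g⟩` of order `n` is cyclic, generated by an
element mapping to `g ^ (n / n')`. -/
theorem exists_gen_of_injective [Finite G'] {g : G} (hg : IsGen g) (ι : G' →* G)
    (hinj : Function.Injective ι) :
    ∃ (g' : G') (f : ℕ), IsGen g' ∧ ι g' = g ^ f ∧ f * orderOf g' = orderOf g := by
  have : Finite G := hg.finite
  have hcardG : Nat.card G = orderOf g :=
    (orderOf_eq_card_of_forall_mem_zpowers hg.mem_zpowers).symm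
  have hn'pos : 0 < Nat.card G' := Nat.card_pos
  have h1 : Nat.card ι.range = Nat.card G' :=
    (Nat.card_congr (Equiv.ofInjective ι hinj)).symm
  have hdvd : Nat.card G' ∣ orderOf g := by
    rw [← hcardG, ← h1]
    exact Subgroup.card_subgroup_dvd_card _
  obtain ⟨f, hf⟩ := hdvd
  have hf0 : f ≠ 0 := by
    rintro rfl
    rw [mul_zero] at hf
    exact hg.1.ne' hf
  have hle : ι.range ≤ Subgroup.zpowers (g ^ f) := by
    rintro _ ⟨y, rfl⟩
    obtain ⟨k, hk⟩ := hg.2 (ι y)
    have h2 : (ι y) ^ Nat.card G' = 1 := by rw [← map_pow, pow_card_eq_one', map_one]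
    rw [← hk, ← pow_mul] at h2
    have h3 : orderOf g ∣ k * Nat.card G' := orderOf_dvd_of_pow_eq_one h2
    rw [hf, mul_comm k] at h3
    have h4 : f ∣ k := (Nat.mul_dvd_mul_iff_left hn'pos).1 h3
    obtain ⟨c, rfl⟩ := h4
    rw [← hk, pow_mul]
    exact Subgroup.npow_mem_zpowers _ _
  have hord : orderOf (g ^ f) = Nat.card G' := by
    rw [orderOf_pow' _ hf0, hf, Nat.gcd_mul_left_left, Nat.mul_div_cancel _ (Nat.pos_of_ne_zero hf0)]
  have hcard : Nat.card (Subgroup.zpowers (g ^ f)) = Nat.card G' := by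
    rw [Nat.card_zpowers, hord]
  have heq : ι.range = Subgroup.zpowers (g ^ f) :=
    Subgroup.eq_of_le_of_card_ge hle (by rw [hcard, h1])
  have hmem : g ^ f ∈ ι.range := heq ▸ Subgroup.mem_zpowers _
  obtain ⟨g', hg'⟩ := hmem
  have hord' : orderOf g' = Nat.card G' := by
    rw [← orderOf_injective ι hinj, hg', hord]
  exact ⟨g', f, isGen_of_orderOf_eq_card hord', hg', by rw [hord', hf, mul_comm]⟩

end group

section pull

variable {G G' M M' : Type*} [Group G] [Group G'] [CommGroup M] [CommGroup M']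
  [MulDistribMulAction G M] [MulDistribMulAction G' M']

/-- Pull-back of a 2-cochain along `ι : G' → G` and `ψ : M → M'`. -/
def pullCochain (ι : G' →* G) (ψ : M →* M') (f : G × G → M) : G' × G' → M' :=
  fun p => ψ (f (ι p.1, ι p.2))

lemma isMulCocycle₂_pullCochain (ι : G' →* G) (ψ : M →* M')
    (hψ : ∀ (σ : G') (a : M), ψ (ι σ • a) = σ • ψ a) {f : G × G → M} (hf : IsMulCocycle₂ f) :
    IsMulCocycle₂ (pullCochain ι ψ f) := by
  intro x y z
  have := congrArg ψ (hf (ι x) (ι y) (ι z))
  simp only [pullCochain, map_mul] at this ⊢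
  rw [this, hψ]

lemma isMulCoboundary₂_pullCochain (ι : G' →* G) (ψ : M →* M')
    (hψ : ∀ (σ : G') (a : M), ψ (ι σ • a) = σ • ψ a) {f : G × G → M}
    (hf : IsMulCoboundary₂ f) : IsMulCoboundary₂ (pullCochain ι ψ f) := by
  obtain ⟨x, hx⟩ := hf
  refine ⟨fun σ => ψ (x (ι σ)), fun σ τ => ?_⟩
  have := congrArg ψ (hx (ι σ) (ι τ))
  simp only [pullCochain, map_mul, map_div] at this ⊢
  rw [← this, hψ]

lemma pullCochain_stdCocycle {g : G} {g' : G'} (hg' : IsGen g') (hg : 0 < orderOf g)
    (ι : G' →* G) (ψ : M →* M') {f : ℕ} (hι : ι g' = g ^ f)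
    (hf : f * orderOf g' = orderOf g) (a : M) :
    pullCochain ι ψ (stdCocycle g a) = stdCocycle g' (ψ a) := by
  funext p
  simp only [pullCochain]
  rw [stdCocycle_comp_hom hg' hg ι hι hf, stdCocycle_map]

end pull

section field

variable {E F E' F' : Type*} [Field E] [Field F] [Algebra E F] [Field E'] [Field F']
  [Algebra E' F'] [FiniteDimensional E' F'] [IsGalois E' F']
  {Γ₀ : Type*} [LinearOrderedCommGroupWithZero Γ₀] {v' : Valuation F' Γ₀} {π' : E'}

/-- **LOC-5 (c).** Base change of the unramified classes. -/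
theorem exists_gen_baseChange {φ : F ≃ₐ[E] F} (hφ : IsGen φ) (j : F →+* F')
    (ι : (F' ≃ₐ[E'] F') →* (F ≃ₐ[E] F)) (hι : ∀ (σ : F' ≃ₐ[E'] F') (x : F), j (ι σ x) = σ (j x))
    (hinj : Function.Injective ι)
    (hgal' : ∀ (σ : F' ≃ₐ[E'] F') (x : F'), v' (σ x) = v' x)
    (hur' : IsUnramVal E' v') (hπ' : IsUnifVal v' π')
    (hidx' : (normSubgp E' F').index = Module.finrank E' F') :
    ∃ (φ' : F' ≃ₐ[E'] F') (f : ℕ), IsGen φ' ∧ ι φ' = φ ^ f ∧ f * orderOf φ' = orderOf φ ∧
      ∀ (a : Eˣ) (e : ℤ), v' (j (algebraMap E F a)) = v' (algebraMap E' F' π') ^ e →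
        (pullCochain ι (Units.map (j : F →* F')) (stdCocycle φ (unitsIncl E F a)) =
            stdCocycle φ' (Units.map (j : F →* F') (unitsIncl E F a))) ∧
          IsMulCoboundary₂ (fun p =>
            pullCochain ι (Units.map (j : F →* F')) (stdCocycle φ (unitsIncl E F a)) p /
              stdCocycle φ' (unifUnit hπ' ^ e) p) ∧
          (IsMulCoboundary₂
              (pullCochain ι (Units.map (j : F →* F')) (stdCocycle φ (unitsIncl E F a))) ↔
            (Module.finrank E' F' : ℤ) ∣ e) := by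
  obtain ⟨φ', f, hφ', hιφ', hf⟩ := exists_gen_of_injective hφ ι hinj
  refine ⟨φ', f, hφ', hιφ', hf, fun a e he => ?_⟩
  have hpull := pullCochain_stdCocycle (M := Fˣ) (M' := F'ˣ) hφ' hφ.1 ι
    (Units.map (j : F →* F')) hιφ' hf (unitsIncl E F a)
  -- the image of `a` lies in `E'`
  have hfix : φ' • Units.map (j : F →* F') (unitsIncl E F a) =
      Units.map (j : F →* F') (unitsIncl E F a) := by
    ext
    have := hι φ' (algebraMap E F a)
    simp only [AlgEquiv.commutes] at this
    simpa using this.symm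
  obtain ⟨a', ha'⟩ := exists_unitsIncl_of_fixed hφ' hfix
  have hord : ordVal hπ' a' = e := by
    rw [ordVal_eq_iff, ← he]
    have := congrArg (fun u : F'ˣ => (u : F')) ha'
    simp only [unitsIncl_coe, Units.coe_map, MonoidHom.coe_coe] at this
    rw [this]
  obtain ⟨y, hy⟩ := exists_eq_unif_zpow_mul_norm hgal' hur' hπ' hidx' a'
  have h1 : Units.map (j : F →* F') (unitsIncl E F a) =
      unifUnit hπ' ^ e * cycNorm φ' y := by
    rw [← ha']
    conv_lhs => rw [hy]
    rw [map_mul, map_zpow, cycNorm_eq_unitsIncl_norm hφ', hord]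
    rfl
  have hcob : IsMulCoboundary₂ (fun p =>
      pullCochain ι (Units.map (j : F →* F')) (stdCocycle φ (unitsIncl E F a)) p /
        stdCocycle φ' (unifUnit hπ' ^ e) p) := by
    refine isMulCoboundary₂_congr (fun p => ?_) (isMulCoboundary₂_stdCocycle_cycNorm hφ' y)
    rw [hpull, h1, stdCocycle_mul, mul_div_cancel_left]
  refine ⟨hpull, hcob, ?_⟩
  rw [← isMulCoboundary₂_unif_zpow_iff hφ' hgal' hur' hπ' hidx' e]
  constructor
  · intro h
    have := isMulCoboundary₂_div h hcob
    refine isMulCoboundary₂_congr (fun p => ?_) this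
    simp
  · intro h
    have := isMulCoboundary₂_mul hcob h
    refine isMulCoboundary₂_congr (fun p => ?_) this
    simp

end field

end Fermat.Agent.H61.CFT
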