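/-
P-CFT / LOC-5 (helper61), part 4: the unramified Brauer class in `groupCohomology.H2`.

`H²(Gal(F/E), Fˣ)` (Mathlib `groupCohomology.H2 (Rep.ofAlgebraAutOnUnits E F)`) is cyclic of order
`n = [F : E]`, generated by the class of the standard cocycle of a uniformizer.
-/
import Mathlib
import Fermat.Agent.H61.CFT.UnramBrauer

set_option autoImplicit false
set_option linter.unusedSectionVars false

noncomputable section

namespace Fermat.Agent.H61.CFT

open groupCohomology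

section general

variable {G M : Type} [Group G] [CommGroup M] [MulDistribMulAction G M]

/-- The class in `H²` of a multiplicative 2-cocycle. -/
def h2Class {f : G × G → M} (hf : IsMulCocycle₂ f) : H2 (Rep.ofMulDistribMulAction G M) :=
  H2π (Rep.ofMulDistribMulAction G M) (cocyclesOfIsMulCocycle₂ hf)

lemma mem_coboundaries₂_iff (f : G × G → M) :
    (Additive.ofMul ∘ f : G × G → Additive M) ∈ coboundaries₂ (Rep.ofMulDistribMulAction G M) ↔
      IsMulCoboundary₂ f := by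
  constructor
  · rintro ⟨x, hx⟩
    exact ⟨fun g => Additive.toMul (x g), fun g h => congrFun hx (g, h)⟩
  · rintro ⟨x, hx⟩
    exact ⟨fun g => Additive.ofMul (x g), funext fun p => hx p.1 p.2⟩

lemma h2Class_eq_zero_iff {f : G × G → M} (hf : IsMulCocycle₂ f) :
    h2Class hf = 0 ↔ IsMulCoboundary₂ f := by
  unfold h2Class
  rw [H2π_eq_zero_iff]
  exact mem_coboundaries₂_iff f

lemma exists_eq_h2Class (x : H2 (Rep.ofMulDistribMulAction G M)) :
    ∃ (f : G × G → M) (hf : IsMulCocycle₂ f), x = h2Class hf := by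
  induction x using H2_induction_on with
  | h c =>
    have hc : IsMulCocycle₂ (M := M) (fun p => Additive.toMul (c.1 p : Additive M)) :=
      isMulCocycle₂_of_mem_cocycles₂ (G := G) (M := M) c.1 c.2
    exact ⟨_, hc, congrArg _ (Subtype.ext rfl)⟩

lemma h2Class_sub_zsmul {f f' : G × G → M} (hf : IsMulCocycle₂ f) (hf' : IsMulCocycle₂ f')
    (m : ℤ) : h2Class hf - m • h2Class hf' = 0 ↔
      IsMulCoboundary₂ (fun p => f p / (f' p) ^ m) := by
  unfold h2Class
  rw [← map_zsmul, ← map_sub, H2π_eq_zero_iff]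
  exact mem_coboundaries₂_iff (fun p => f p / (f' p) ^ m)

lemma zsmul_h2Class_eq_zero_iff {f' : G × G → M} (hf' : IsMulCocycle₂ f') (m : ℤ) :
    m • h2Class hf' = 0 ↔ IsMulCoboundary₂ (fun p => (f' p) ^ m) := by
  unfold h2Class
  rw [← map_zsmul, H2π_eq_zero_iff]
  exact mem_coboundaries₂_iff (fun p => (f' p) ^ m)

end general

section field

variable {E F : Type} [Field E] [Field F] [Algebra E F] [FiniteDimensional E F] [IsGalois E F]
  {Γ₀ : Type*} [LinearOrderedCommGroupWithZero Γ₀] {v : Valuation F Γ₀} {π : E}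

/-- The class of the uniformizer cocycle in `H²(Gal(F/E), Fˣ)`
(`Rep.ofMulDistribMulAction (F ≃ₐ[E] F) Fˣ` is `Rep.ofAlgebraAutOnUnits E F` by `rfl`). -/
def unramClass {φ : F ≃ₐ[E] F} (hφ : IsGen φ) (hπ : IsUnifVal v π) :
    H2 (Rep.ofMulDistribMulAction (F ≃ₐ[E] F) Fˣ) :=
  h2Class (isMulCocycle₂_stdCocycle_unitsIncl hφ (Units.mk0 π hπ.1))

/-- **LOC-5 (b), `H²` form.** `m • u_π = 0 ↔ n ∣ m`. -/
theorem zsmul_unramClass_eq_zero_iff {φ : F ≃ₐ[E] F} (hφ : IsGen φ)
    (hgal : ∀ (σ : F ≃ₐ[E] F) (x : F), v (σ x) = v x)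
    (hur : IsUnramVal E v) (hπ : IsUnifVal v π)
    (hidx : (normSubgp E F).index = Module.finrank E F) (m : ℤ) :
    m • unramClass hφ hπ = 0 ↔ (Module.finrank E F : ℤ) ∣ m := by
  unfold unramClass
  rw [zsmul_h2Class_eq_zero_iff, ← isMulCoboundary₂_unif_zpow_iff hφ hgal hur hπ hidx m]
  have : (fun p => stdCocycle φ (unitsIncl E F (Units.mk0 π hπ.1)) p ^ m) =
      stdCocycle φ (unifUnit hπ ^ m) := by
    funext p
    rw [stdCocycle_zpow]
    rfl
  rw [this]

/-- The class `u_π` has exact order `n = [F : E]`. -/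
theorem addOrderOf_unramClass {φ : F ≃ₐ[E] F} (hφ : IsGen φ)
    (hgal : ∀ (σ : F ≃ₐ[E] F) (x : F), v (σ x) = v x)
    (hur : IsUnramVal E v) (hπ : IsUnifVal v π)
    (hidx : (normSubgp E F).index = Module.finrank E F) :
    addOrderOf (unramClass hφ hπ) = Module.finrank E F := by
  have hn : 0 < Module.finrank E F := Module.finrank_pos
  refine (addOrderOf_eq_iff hn).2 ⟨?_, fun m hm hm0 => ?_⟩
  · have := (zsmul_unramClass_eq_zero_iff hφ hgal hur hπ hidx (Module.finrank E F)).2 dvd_rfl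
    rwa [natCast_zsmul] at this
  · intro h
    have h' : ((m : ℕ) : ℤ) • unramClass hφ hπ = 0 := by rwa [natCast_zsmul]
    have := (zsmul_unramClass_eq_zero_iff hφ hgal hur hπ hidx m).1 h'
    have := Int.natCast_dvd_natCast.1 this
    exact absurd (Nat.le_of_dvd hm0 this) (not_le.2 hm)

/-- Every class in `H²(Gal(F/E), Fˣ)` is an integer multiple of `u_π`. -/
theorem exists_zsmul_unramClass {φ : F ≃ₐ[E] F} (hφ : IsGen φ)
    (hgal : ∀ (σ : F ≃ₐ[E] F) (x : F), v (σ x) = v x)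
    (hur : IsUnramVal E v) (hπ : IsUnifVal v π)
    (hidx : (normSubgp E F).index = Module.finrank E F)
    (x : H2 (Rep.ofMulDistribMulAction (F ≃ₐ[E] F) Fˣ)) :
    ∃ m : ℤ, x = m • unramClass hφ hπ := by
  obtain ⟨f, hf, rfl⟩ := exists_eq_h2Class (G := F ≃ₐ[E] F) (M := Fˣ) x
  obtain ⟨m, hm⟩ := exists_unif_zpow_cohomologous hφ hgal hur hπ hidx hf
  refine ⟨m, ?_⟩
  rw [← sub_eq_zero]
  unfold unramClass
  rw [h2Class_sub_zsmul]
  refine isMulCoboundary₂_congr (fun p => ?_) hm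
  rw [stdCocycle_zpow]
  rfl

/-! ### The same statements for `Rep.ofAlgebraAutOnUnits E F` -/

/-- `unramClass` as an element of `H2 (Rep.ofAlgebraAutOnUnits E F)`. -/
def unramClass' {φ : F ≃ₐ[E] F} (hφ : IsGen φ) (hπ : IsUnifVal v π) :
    H2 (Rep.ofAlgebraAutOnUnits E F) := unramClass hφ hπ

theorem zsmul_unramClass'_eq_zero_iff {φ : F ≃ₐ[E] F} (hφ : IsGen φ)
    (hgal : ∀ (σ : F ≃ₐ[E] F) (x : F), v (σ x) = v x)
    (hur : IsUnramVal E v) (hπ : IsUnifVal v π)
    (hidx : (normSubgp E F).index = Module.finrank E F) (m : ℤ) :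
    m • unramClass' hφ hπ = 0 ↔ (Module.finrank E F : ℤ) ∣ m :=
  zsmul_unramClass_eq_zero_iff hφ hgal hur hπ hidx m

theorem addOrderOf_unramClass' {φ : F ≃ₐ[E] F} (hφ : IsGen φ)
    (hgal : ∀ (σ : F ≃ₐ[E] F) (x : F), v (σ x) = v x)
    (hur : IsUnramVal E v) (hπ : IsUnifVal v π)
    (hidx : (normSubgp E F).index = Module.finrank E F) :
    addOrderOf (unramClass' hφ hπ) = Module.finrank E F :=
  addOrderOf_unramClass hφ hgal hur hπ hidx

theorem exists_zsmul_unramClass' {φ : F ≃ₐ[E] F} (hφ : IsGen φ)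
    (hgal : ∀ (σ : F ≃ₐ[E] F) (x : F), v (σ x) = v x)
    (hur : IsUnramVal E v) (hπ : IsUnifVal v π)
    (hidx : (normSubgp E F).index = Module.finrank E F)
    (x : H2 (Rep.ofAlgebraAutOnUnits E F)) :
    ∃ m : ℤ, x = m • unramClass' hφ hπ :=
  exists_zsmul_unramClass hφ hgal hur hπ hidx x

end field

end Fermat.Agent.H61.CFT
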