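/-
P-CFT / LOC-5 (helper61): bridge to the interface of LOC-1 (`Fermat.Agent.H78.CFT.LocalDefs`).
-/
import Mathlib
import Fermat.Agent.H78.CFT.LocalDefs
import Fermat.Agent.H61.CFT.UnramBrauerH2
import Fermat.Agent.H61.CFT.UnramBaseChange

set_option autoImplicit false

noncomputable section

namespace Fermat.Agent.H61.CFT

open Fermat.Agent.H78.CFT

lemma normSubgp_eq_normSubgroup (E F : Type*) [Field E] [Field F] [Algebra E F] :
    normSubgp E F = normSubgroup E F := rfl

/-- The uniformizer of `E` provided by a `LocalNormDatum`. -/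
lemma exists_isUnifVal_of_datum {E F : Type*} [Field E] [Field F] [Algebra E F]
    {Γ₀ : Type*} [LinearOrderedCommGroupWithZero Γ₀] {v : Valuation F Γ₀}
    (hd : LocalNormDatum E F v) : ∃ π : E, IsUnifVal v π := hd.unifK

/-- The norm index hypothesis of LOC-5 from the norm index theorem LOC-1. -/
lemma index_normSubgp_of_normIndex (h : NormIndexStatement)
    {E F : Type} [Field E] [Field F] [Algebra E F] [FiniteDimensional E F] [IsGalois E F]
    [IsCyclic (F ≃ₐ[E] F)] {Γ₀ : Type} [LinearOrderedCommGroupWithZero Γ₀]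
    {v : Valuation F Γ₀} (hd : LocalNormDatum E F v) :
    (normSubgp E F).index = Module.finrank E F :=
  h E F Γ₀ v hd

/-- **LOC-5, packaged.** For an unramified cyclic extension `F / E` with a `LocalNormDatum`
and generator `φ` of the Galois group, given the norm index theorem: there is a uniformizer
`π` of `E` whose class `u_π ∈ H²(Gal(F/E), Fˣ)` has exact order `[F : E]` and generates. -/
theorem unram_H2_cyclic (h : NormIndexStatement)
    {E F : Type} [Field E] [Field F] [Algebra E F] [FiniteDimensional E F] [IsGalois E F]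
    {Γ₀ : Type} [LinearOrderedCommGroupWithZero Γ₀]
    {v : Valuation F Γ₀} (hd : LocalNormDatum E F v) (hur : IsUnramVal E v)
    {φ : F ≃ₐ[E] F} (hφ : ∀ σ : F ≃ₐ[E] F, σ ∈ Subgroup.zpowers φ) :
    ∃ (π : E) (hπ : IsUnifVal v π) (hg : IsGen φ),
      addOrderOf (unramClass' hg hπ) = Module.finrank E F ∧
      (∀ m : ℤ, m • unramClass' hg hπ = 0 ↔ (Module.finrank E F : ℤ) ∣ m) ∧
      ∀ x : groupCohomology.H2 (Rep.ofAlgebraAutOnUnits E F), ∃ m : ℤ, x = m • unramClass' hg hπ := by
  obtain ⟨π, hπ⟩ := exists_isUnifVal_of_datum hd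
  have hg : IsGen φ := isGen_of_forall_mem_zpowers hφ
  have : IsCyclic (F ≃ₐ[E] F) := ⟨⟨φ, hφ⟩⟩
  have hidx := index_normSubgp_of_normIndex h hd
  exact ⟨π, hπ, hg, addOrderOf_unramClass' hg hd.galois_inv hur hπ hidx,
    fun m => zsmul_unramClass'_eq_zero_iff hg hd.galois_inv hur hπ hidx m,
    fun x => exists_zsmul_unramClass' hg hd.galois_inv hur hπ hidx x⟩

end Fermat.Agent.H61.CFT
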