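/-
P-CFT / LOCAL, block LOC-6, row BR-PCYC (helper61): `H²(Gal(F/E), Fˣ)` is cyclic for `p`-group
extensions of local fields, from `UnramSplitStatement` and `OrderBoundAbsStatement`.
-/
import Fermat.Agent.H24.Brauer.Interfaces
import Fermat.Agent.H44.CFT.FieldDict
import Fermat.Agent.H75.Coh2Adapters

set_option autoImplicit false
set_option linter.style.haveILetI false
set_option linter.unusedSectionVars false
set_option synthInstance.maxHeartbeats 400000

noncomputable section

open CategoryTheory groupCohomology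

namespace Fermat.Agent.H61.Brauer

open Fermat.Agent.H78.CFT Fermat.Agent.H81.Local Fermat.Agent.H24.Brauer

/-! ### Pure algebra -/

/-- A finite abelian group of order dividing `n` containing an element of order divisible by
`n` is cyclic. -/
theorem isAddCyclic_of_card_dvd {X : Type*} [AddCommGroup X] [Finite X] {n : ℕ}
    (hcard : Nat.card X ∣ n) (w : X) (hw : ∀ m : ℤ, m • w = 0 → (n : ℤ) ∣ m) : IsAddCyclic X := by
  have h1 : n ∣ addOrderOf w := by
    have := hw (addOrderOf w : ℤ) (by rw [natCast_zsmul]; exact addOrderOf_nsmul_eq_zero w)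
    exact_mod_cast this
  have h2 : addOrderOf w ∣ Nat.card X := addOrderOf_dvd_natCard w
  exact isAddCyclic_of_addOrderOf_eq_card w (Nat.dvd_antisymm h2 (hcard.trans h1))

/-! ### Transport of `H²` along an isomorphism of extensions -/

section Transport

variable {E F₁ F₂ : Type} [Field E] [Field F₁] [Field F₂] [Algebra E F₁] [Algebra E F₂]

/-- The units of isomorphic algebras, `ℤ`-linearly. -/
def unitsLinearEquiv (e : F₁ ≃ₐ[E] F₂) : Additive F₁ˣ ≃ₗ[ℤ] Additive F₂ˣ :=
  (MulEquiv.toAdditive (Units.mapEquiv (e : F₁ ≃* F₂))).toIntLinearEquiv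

theorem unitsLinearEquiv_apply (e : F₁ ≃ₐ[E] F₂) (x : Additive F₁ˣ) :
    (((Additive.toMul (unitsLinearEquiv e x) : F₂ˣ)) : F₂) = e ((Additive.toMul x : F₁ˣ) : F₁) :=
  rfl

/-- `H²(Gal(F₁/E), F₁ˣ) ≅ H²(Gal(F₂/E), F₂ˣ)` for `F₁ ≃ₐ[E] F₂`. -/
def h2CongrAlgEquiv (e : F₁ ≃ₐ[E] F₂) :
    groupCohomology.H2 (Rep.ofAlgebraAutOnUnits E F₁) ≅
      groupCohomology.H2 (Rep.ofAlgebraAutOnUnits E F₂) :=
  mapIso (A := Rep.ofAlgebraAutOnUnits E F₂) (B := Rep.ofAlgebraAutOnUnits E F₁)
    (AlgEquiv.autCongr e) (unitsLinearEquiv e)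
    (by
      intro g
      ext x
      apply Additive.toMul.injective
      apply Units.ext
      show e (g ((Additive.toMul x : F₁ˣ) : F₁)) =
        (AlgEquiv.autCongr e g) (e ((Additive.toMul x : F₁ˣ) : F₁))
      rw [AlgEquiv.autCongr_apply, AlgEquiv.trans_apply, AlgEquiv.trans_apply,
        AlgEquiv.symm_apply_apply]) 2

end Transport

/-! ### The subgroup `galSub` -/

section GalSub

variable {E : IntermediateField ℚ Qb} {F L : IntermediateField E Qb}

theorem galSub_eq_fixingSubgroup (hFL : F ≤ L) :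
    galSub E F L = (IntermediateField.restrict hFL).fixingSubgroup := by
  ext σ
  rw [mem_galSub, IntermediateField.mem_fixingSubgroup_iff]
  constructor
  · intro h x hx
    exact h x ((IntermediateField.mem_restrict hFL x).1 hx)
  · intro h x hx
    exact h x ((IntermediateField.mem_restrict hFL x).2 hx)

theorem galSub_normal (hFL : F ≤ L) [FiniteDimensional E L] [IsGalois E L] [IsGalois E F] :
    (galSub E F L).Normal := by
  haveI : IsGalois E (IntermediateField.restrict hFL) :=
    IsGalois.of_algEquiv (IntermediateField.restrictAlgEquiv hFL)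
  rw [galSub_eq_fixingSubgroup hFL]
  infer_instance

theorem fixedField_galSub (hFL : F ≤ L) [FiniteDimensional E L] [IsGalois E L] :
    IntermediateField.fixedField (galSub E F L) = IntermediateField.restrict hFL := by
  rw [galSub_eq_fixingSubgroup hFL]
  exact IsGalois.fixedField_fixingSubgroup _

/-- The fixed field of `galSub E F L` is `F`. -/
def fixedFieldGalSubEquiv (hFL : F ≤ L) [FiniteDimensional E L] [IsGalois E L] :
    IntermediateField.fixedField (galSub E F L) ≃ₐ[E] F :=
  (IntermediateField.equivOfEq (fixedField_galSub hFL)).trans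
    (IntermediateField.restrictAlgEquiv hFL).symm

end GalSub

/-! ### The main statement -/

/-- **BR-PCYC.** -/
theorem pGroupCyclic (h1 : UnramSplitStatement) (h2 : OrderBoundAbsStatement) :
    PGroupCyclicStatement := by
  intro p q _ _ E hE F _ _ hP
  obtain ⟨L, hLfd, hLgal, hFL, y, hy, hres⟩ := h1 q E hE F
  haveI := hLfd
  haveI := hLgal
  haveI hSn : (galSub E F L).Normal := galSub_normal hFL
  have hH1 : Subsingleton (groupCohomology.H1
      (Rep.res (galSub E F L).subtype (Rep.ofAlgebraAutOnUnits E L))) :=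
    Fermat.Agent.H44.CFT.h1_res_subsingleton (galSub E F L).subtype
      (Subgroup.subtype_injective _)
  obtain ⟨w, hw⟩ := Fermat.Agent.H75.Coh2.infRes2_middle ℤ (L ≃ₐ[E] L)
    (Rep.ofAlgebraAutOnUnits E L) (galSub E F L) hH1 y hres
  let φ := ((Fermat.Agent.H44.CFT.h2LayerIso E L (galSub E F L)) ≪≫
    (h2CongrAlgEquiv (fixedFieldGalSubEquiv hFL))).toLinearEquiv
  obtain ⟨hfin, hcard⟩ := h2 p q E F (algebraMap F Qb) (isLocalPair_of_intermediateField hE F) hP
  haveI := hfin
  refine isAddCyclic_of_card_dvd hcard (φ w) (fun m hm => hy m ?_)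
  rw [← map_zsmul] at hm
  have hm' : m • w = 0 := φ.injective (hm.trans (map_zero φ).symm)
  rw [← hw, ← map_zsmul, hm', map_zero]

end Fermat.Agent.H61.Brauer

end
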