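/-
P-CFT / LOCAL, block LOC-6, row BR-PCYC+ (helper61): `H²(Gal(F/E), Fˣ)` is cyclic of order
`[F : E]` for `p`-group extensions of local fields, from `UnramSplitStatement` and
`OrderBoundAbsStatement`.
-/
import Fermat.Agent.H24.Brauer.Interfaces2
import Fermat.Agent.H61.CFT.PGroupCyclic

set_option autoImplicit false
set_option linter.style.haveILetI false
set_option linter.unusedSectionVars false
set_option synthInstance.maxHeartbeats 400000

noncomputable section

open CategoryTheory groupCohomology

namespace Fermat.Agent.H61.Brauer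

open Fermat.Agent.H78.CFT Fermat.Agent.H81.Local Fermat.Agent.H24.Brauer

/-- A finite abelian group of order dividing `n` containing an element of order divisible by
`n` has order `n`. -/
theorem card_eq_of_card_dvd {X : Type*} [AddCommGroup X] [Finite X] {n : ℕ}
    (hcard : Nat.card X ∣ n) (w : X) (hw : ∀ m : ℤ, m • w = 0 → (n : ℤ) ∣ m) :
    Nat.card X = n := by
  have h1 : n ∣ addOrderOf w := by
    have := hw (addOrderOf w : ℤ) (by rw [natCast_zsmul]; exact addOrderOf_nsmul_eq_zero w)
    exact_mod_cast this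
  have h2 : addOrderOf w ∣ Nat.card X := addOrderOf_dvd_natCard w
  exact Nat.dvd_antisymm hcard (h1.trans h2)

/-- **BR-PCYC+.** -/
theorem pGroupCard (h1 : UnramSplitStatement) (h2 : OrderBoundAbsStatement) :
    PGroupCardStatement := by
  intro p q _ _ E hE F _ _ hP
  obtain ⟨L, hLfd, hLgal, hFL, y, hy, hres⟩ := h1 q E hE F
  haveI := hLfd
  haveI := hLgal
  haveI hSn : (galSub E F L).Normal := galSub_normal hFL
  have hH1 : Subsingleton (groupCohomology.H1
      (Rep.res (galSub E F L).subtype (Rep.ofAlgebraAutOnUnits E L))) :=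
    Fermat.Agent.H44.CFT.h1_res_subsingleton (galSub E F L).subtype
      (Subgroup.subtype_injective _)
  obtain ⟨w, hw⟩ := Fermat.Agent.H75.Coh2.infRes2_middle ℤ (L ≃ₐ[E] L)
    (Rep.ofAlgebraAutOnUnits E L) (galSub E F L) hH1 y hres
  let φ := ((Fermat.Agent.H44.CFT.h2LayerIso E L (galSub E F L)) ≪≫
    (h2CongrAlgEquiv (fixedFieldGalSubEquiv hFL))).toLinearEquiv
  obtain ⟨hfin, hcard⟩ := h2 p q E F (algebraMap F Qb) (isLocalPair_of_intermediateField hE F) hP
  haveI := hfin
  have key : ∀ m : ℤ, m • φ w = 0 → ((Module.finrank E F : ℕ) : ℤ) ∣ m := by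
    intro m hm
    refine hy m ?_
    rw [← map_zsmul] at hm
    have hm' : m • w = 0 := φ.injective (hm.trans (map_zero φ).symm)
    rw [← hw, ← map_zsmul, hm', map_zero]
  exact ⟨isAddCyclic_of_card_dvd hcard (φ w) key, card_eq_of_card_dvd hcard (φ w) key⟩

end Fermat.Agent.H61.Brauer

end
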