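/-
P-CFT / LOCAL, block LOC-6, row BR-UCLASS (helper61): the unramified class of degree `p`.

`theorem unramClassP : Fermat.Agent.H24.Brauer.UnramClassPStatement`.
-/
import Fermat.Agent.H24.Brauer.Interfaces
import Fermat.Agent.H61.CFT.UnramH78
import Fermat.Agent.H78.CFT.LocalNormIndex

set_option autoImplicit false
set_option linter.style.haveILetI false
set_option synthInstance.maxHeartbeats 400000

noncomputable section

open groupCohomology

namespace Fermat.Agent.H61.CFT

open Fermat.Agent.H78.CFT Fermat.Agent.H81.Local Fermat.Agent.H49.Unram Fermat.Agent.H24.Brauer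

/-- **BR-UCLASS.** -/
theorem unramClassP : UnramClassPStatement := by
  intro p _ q _ E hE
  have hp : 0 < p := (Fact.out : p.Prime).pos
  obtain ⟨φ, hφ⟩ := exists_frob_unramExt hE hp
  haveI : FiniteDimensional E (unramExt q E p) := hφ.finiteDimensional
  haveI : IsGalois E (unramExt q E p) := hφ.isGalois
  have hd := localNormDatum_unramExt hE hp
  have hur : IsUnramVal E (qValOn q (unramExt q E p)) := by
    intro x hx
    obtain ⟨y, hy⟩ := hφ.unram x hx
    refine ⟨y, ?_, hy⟩
    rintro rfl
    have h0 : qValOn q (unramExt q E p) x = 0 := by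
      rw [qValOn_apply, hy, map_zero, map_zero]
    exact hx ((map_eq_zero _).1 h0)
  obtain ⟨π, hπ⟩ := exists_isUnifVal_of_datum hd
  have hg : IsGen φ := isGen_of_forall_mem_zpowers hφ.gen
  haveI : IsCyclic (unramExt q E p ≃ₐ[E] unramExt q E p) := ⟨⟨φ, hφ.gen⟩⟩
  have hidx := index_normSubgp_of_normIndex normIndex hd
  have hfr : Module.finrank E (unramExt q E p) = p := hφ.finrank_eq
  refine ⟨unramExt q E p, hφ.finiteDimensional, hφ.isGalois,
    stdCocycle φ (unifUnit hπ), isMulCocycle₂_stdCocycle_unitsIncl hg _, ?_, ?_⟩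
  · have h1 := (isMulCoboundary₂_unif_zpow_iff hg hd.galois_inv hur hπ hidx (p : ℤ)).2
      (by rw [hfr])
    refine isMulCoboundary₂_congr (fun x => ?_) h1
    rw [zpow_natCast]
    have := stdCocycle_zpow φ (unifUnit hπ) (p : ℤ) x
    rw [zpow_natCast, zpow_natCast] at this
    exact this
  · intro hcob
    have h1 := (isMulCoboundary₂_unif_zpow_iff hg hd.galois_inv hur hπ hidx (1 : ℤ)).1
      (by rw [zpow_one]; exact hcob)
    rw [hfr] at h1
    have h2 : p ∣ 1 := by exact_mod_cast h1
    exact (Fact.out : p.Prime).one_lt.ne' (Nat.dvd_one.1 h2)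

end Fermat.Agent.H61.CFT

end
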